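import Mathlib
import Fermat.Agent.S18.B12.H33.RegChart
import Fermat.Agent.S18.B12.H273.B2Normal

/-!
# S37 / D2 (helper278): normality of the special fibre of a chart (typed form)

`normal_chart` : `H273.b2Normal` instantiated on the chart `H138.chart R {x}` of helper138, with
the instance plumbing of `B12.H33.regularAlong_chart`.  `normal_chart_field` : the same with `hsep`
and `hNC` stated by elements of `F` (shape of `H438.GoodModelFront.hsep_chart`).
-/

set_option autoImplicit false
set_option linter.style.haveILetI false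
set_option linter.unusedSectionVars false

noncomputable section

namespace Fermat.Agent.S37.H278.NA

open Polynomial Fermat.Agent.S18 Fermat.Agent.S18.B12 Fermat.Agent.S18.B12.H33

universe u v

variable {R : Type u} [CommRing R] [IsDomain R] [IsDiscreteValuationRing R]
  {F : Type v} [Field F] [CharZero F] [Algebra R F]

/-- **NORMAL-CHART.**  `b2Normal` on the chart `H138.chart R {x}`. -/
theorem normal_chart
    {x : F} (hx : Transcendental R x) [FiniteDimensional (H138.baseField R x) F]
    (w : R) (hw : Irreducible w)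
    (hdom : Prime (algebraMap R (H138.chart R ({x} : Set F)) w))
    (hsep : ∀ b : H138.chart R ({x} : Set F), ∃ P : R[X][X],
        algebraMap R (H138.chart R ({x} : Set F)) w ∣
          P.eval₂ (chartPolyHom R x : R[X] →+* H138.chart R ({x} : Set F)) b ∧
        ¬ algebraMap R (H138.chart R ({x} : Set F)) w ∣
          (derivative P).eval₂ (chartPolyHom R x : R[X] →+* H138.chart R ({x} : Set F)) b)
    (S : Finset R) (hS : ∀ c ∈ S, ∀ c' ∈ S, c ≠ c' → IsUnit (c - c'))
    (hNC : ∀ π : R[X], Prime π → ¬ Associated π (C w) → (∀ c ∈ S, ¬ Associated π (X - C c)) →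
        (Ideal.span {chartPolyHom R x π}).IsRadical)
    (b : H138.chart R ({x} : Set F)) (g : R[X]) (hg : ¬ C w ∣ g)
    (d : ℕ) (a : Fin d → H138.chart R ({x} : Set F))
    (h : algebraMap R (H138.chart R ({x} : Set F)) w ∣
      b ^ d + ∑ i : Fin d, a i * b ^ (i : ℕ) * chartPolyHom R x g ^ (d - (i : ℕ))) :
    ∃ b₀ : H138.chart R ({x} : Set F),
      algebraMap R (H138.chart R ({x} : Set F)) w ∣ b - chartPolyHom R x g * b₀ := by
  classical
  haveI : CharZero R := (algebraMap R F).charZero
  obtain ⟨hic, hfin⟩ := chart_package (R := R) hx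
  letI := chartAlgebra R x
  haveI := hic
  haveI := hfin
  haveI : Module.IsTorsionFree R[X] (H138.chart R ({x} : Set F)) :=
    Module.isTorsionFree_iff_algebraMap_injective.2 (chartPolyHom_injective hx)
  have hCw : algebraMap R[X] (H138.chart R ({x} : Set F)) (C w)
      = algebraMap R (H138.chart R ({x} : Set F)) w := chartPolyHom_C x w
  have hdom' : Prime (algebraMap R[X] (H138.chart R ({x} : Set F)) (C w)) := by
    rw [hCw]; exact hdom
  have hsep' := H425.hsep_poly R w hw (H138.chart R ({x} : Set F)) hdom' (by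
    intro b
    obtain ⟨P, h1, h2⟩ := hsep b
    refine ⟨P, ?_, ?_⟩
    · rw [hCw]; exact h1
    · rw [hCw]; exact h2)
  obtain ⟨b₀, hb₀⟩ := H273.b2Normal_unfolded R w hw (H138.chart R ({x} : Set F)) hsep' S hS hNC
    b g hg ⟨d, a, by
      rw [Ideal.mem_span_singleton, hCw]
      exact h⟩
  refine ⟨b₀, ?_⟩
  rw [Ideal.mem_span_singleton, hCw] at hb₀
  exact hb₀

/-- **NORMAL-CHART, field form.**  Same as `normal_chart`, with `hsep` and `hNC` stated by
elements of `F`. -/
theorem normal_chart_field
    {x : F} (hx : Transcendental R x) [FiniteDimensional (H138.baseField R x) F]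
    (w : R) (hw : Irreducible w)
    (hdom : Prime (algebraMap R (H138.chart R ({x} : Set F)) w))
    (hsep : ∀ b ∈ H138.chart R ({x} : Set F), ∃ P : F[X],
        (∀ i, P.coeff i ∈ Algebra.adjoin R ({x} : Set F)) ∧
        (∃ t ∈ H138.chart R ({x} : Set F), P.eval b = algebraMap R F w * t) ∧
        ¬ ∃ t ∈ H138.chart R ({x} : Set F), (derivative P).eval b = algebraMap R F w * t)
    (S : Finset R) (hS : ∀ c ∈ S, ∀ c' ∈ S, c ≠ c' → IsUnit (c - c'))
    (hNC : ∀ π : R[X], Prime π → ¬ Associated π (C w) → (∀ c ∈ S, ¬ Associated π (X - C c)) →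
        (Ideal.span {chartPolyHom R x π}).IsRadical)
    (b : H138.chart R ({x} : Set F)) (g : R[X]) (hg : ¬ C w ∣ g)
    (d : ℕ) (a : Fin d → H138.chart R ({x} : Set F))
    (h : algebraMap R (H138.chart R ({x} : Set F)) w ∣
      b ^ d + ∑ i : Fin d, a i * b ^ (i : ℕ) * chartPolyHom R x g ^ (d - (i : ℕ))) :
    ∃ b₀ : H138.chart R ({x} : Set F),
      algebraMap R (H138.chart R ({x} : Set F)) w ∣ b - chartPolyHom R x g * b₀ := by
  refine normal_chart hx w hw hdom ?_ S hS hNC b g hg d a h
  intro b
  obtain ⟨P, hP, h1, h2⟩ := hsep b b.2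
  have hlift : P ∈ Polynomial.lifts (aeval x : R[X] →ₐ[R] F).toRingHom := by
    rw [Polynomial.lifts_iff_coeff_lifts]
    intro n
    have := hP n
    rw [Algebra.adjoin_singleton_eq_range_aeval] at this
    obtain ⟨q, hq⟩ := this
    exact ⟨q, hq⟩
  obtain ⟨Q, hQ⟩ := (Polynomial.mem_lifts P).1 hlift
  refine ⟨Q, ?_, ?_⟩
  · rw [algebraMap_dvd_chart_iff, coe_eval₂_chartPolyHom, hQ]
    exact h1
  · rw [algebraMap_dvd_chart_iff, coe_eval₂_chartPolyHom, ← derivative_map, hQ]
    exact h2

end Fermat.Agent.S37.H278.NA
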