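import Fermat.Agent.S18.H438.Front.Regular
import Fermat.Agent.S37.H278.NormalChart

/-!
# S37 / D2 (helper278): `NormalAbsStatement` — normality of the special fibre of a good model

For `G : Alg.GoodModel Lc Ec Fc R V w x S`: if `f ∈ V` is a root mod `w` of a monic polynomial
with coefficients in `R[x]`, then `f` is congruent mod `w` to an element of the chart
`B = {b ∈ Fc integral over R[x]}`.

Proof: `f = b / g(x)` with `b ∈ B`, `g ∈ R[X]` primitive (`exists_primitive_mul_mem_chart`); the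
equation gives `b ^ d + ∑ aᵢ bⁱ g ^ (d - i) ∈ w V ∩ B = w B` (QEP); `NA.normal_chart_field`
(= `H273.b2Normal` on the chart, inputs `H438.GoodModelFront.hsep_chart`, `hNC_chart`,
`prime_chart`) gives `b₀ ∈ B` with `b - g b₀ ∈ w B`; `g(x)` is a unit of `V` (`G.gauss`).
-/

set_option autoImplicit false
set_option linter.style.haveILetI false
set_option linter.unusedSectionVars false

noncomputable section

namespace Fermat.Agent.S37.H278.NA

open Polynomial Fermat.Agent.S18 Fermat.Agent.S18.Alg Fermat.Agent.S18.H438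
  Fermat.Agent.S18.H438.GoodModelFront

variable {Ω : Type*} [Field Ω] {Lc Ec Fc : Subfield Ω} {R V : Subring Ω} {w x : Ω}
  {S : Finset Ω}

variable (G : GoodModel Lc Ec Fc R V w x S)

/-- the value in `Ω` of `g(x)`, `g ∈ R[X]` -/
theorem coe_aeval_xf (g : Polynomial (Rf Fc R)) :
    ((aeval (xf G) g : Fc) : Ω) =
      (g.map (Fc.subtype.comp (Rf Fc R).subtype)).eval x := by
  rw [Polynomial.eval_map, Polynomial.aeval_def]
  exact Polynomial.hom_eval₂ g (algebraMap (Rf Fc R) Fc) Fc.subtype (xf G)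

include G in
/-- `g(x) ∈ V` for `g ∈ R[X]`. -/
theorem aeval_xf_mem_V (g : Polynomial (Rf Fc R)) : ((aeval (xf G) g : Fc) : Ω) ∈ V := by
  rw [coe_aeval_xf G, Polynomial.eval_eq_sum_range]
  refine V.sum_mem fun i _ => V.mul_mem ?_ (V.pow_mem G.x_mem_V i)
  rw [Polynomial.coeff_map]
  exact G.R_le_V (g.coeff i).2

include G in
/-- **Gauss**: a polynomial `g ∈ R[X]` not divisible by `w` takes a unit value `g(x)` in `V`. -/
theorem aeval_xf_inv_mem_V (g : Polynomial (Rf Fc R)) (hg : ¬ C (wR G) ∣ g) :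
    (((aeval (xf G) g : Fc) : Ω))⁻¹ ∈ V := by
  haveI := isDiscreteValuationRing_Rf G
  rw [coe_aeval_xf G]
  refine G.gauss _ (fun i => ?_) ?_
  · rw [Polynomial.coeff_map]
    exact (g.coeff i).2
  · rw [Polynomial.C_dvd_iff_dvd_coeff] at hg
    push Not at hg
    obtain ⟨i, hi⟩ := hg
    have hu : IsUnit (g.coeff i) := by
      by_contra hnu
      have hmem : g.coeff i ∈ IsLocalRing.maximalIdeal (Rf Fc R) :=
        (IsLocalRing.mem_maximalIdeal _).2 hnu
      rw [(irreducible_wf G).maximalIdeal_eq, Ideal.mem_span_singleton] at hmem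
      exact hi hmem
    obtain ⟨h0, hinv⟩ := (isUnit_subring_iff (Rf Fc R)).1 hu
    refine ⟨i, ?_, ?_⟩
    · rw [Polynomial.coeff_map]
      intro h
      exact h0 (Subtype.ext h)
    · rw [Polynomial.coeff_map]
      exact hinv

include G in
/-- `g(x) ≠ 0` for `g ≠ 0`. -/
theorem aeval_xf_ne_zero (g : Polynomial (Rf Fc R)) (hg : g ≠ 0) : aeval (xf G) g ≠ 0 :=
  fun h => hg (transcendental_iff.1 (transcendental_xf G) g h)

include G in
/-- every `f ∈ V` is `b / g(x)` with `b` in the chart and `g ∈ R[X]` not divisible by `w`. -/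
theorem exists_primitive_mul_mem_chart (f : Fc) (hf : f ∈ Vf G) :
    ∃ g : Polynomial (Rf Fc R), ¬ C (wR G) ∣ g ∧
      aeval (xf G) g * f ∈ H138.chart (Rf Fc R) ({xf G} : Set Fc) := by
  classical
  haveI := charZero_Fc G
  haveI := isDiscreteValuationRing_Rf G
  haveI := finiteDimensional_baseField G
  have hx := transcendental_xf G
  obtain ⟨hic, hfin⟩ := B12.H33.chart_package (R := Rf Fc R) hx
  obtain ⟨i1, i2, i3⟩ := chart_instances138 G
  letI := B12.H33.chartAlgebra (Rf Fc R) (xf G)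
  haveI := hfin
  haveI : Algebra.IsIntegral (Polynomial (Rf Fc R)) (H138.chart (Rf Fc R) ({xf G} : Set Fc)) :=
    Algebra.IsIntegral.of_finite _ _
  -- `f = b₀ / t₀`
  obtain ⟨b₀, t₀, ht₀, hbt⟩ :=
    IsFractionRing.div_surjective (A := H138.chart (Rf Fc R) ({xf G} : Set Fc)) f
  have ht₀0 : t₀ ≠ 0 := nonZeroDivisors.ne_zero ht₀
  -- a nonzero `h ∈ R[X]` in `t₀ B`
  have hne : (Ideal.span {t₀}).comap
      (algebraMap (Polynomial (Rf Fc R)) (H138.chart (Rf Fc R) ({xf G} : Set Fc))) ≠ ⊥ :=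
    Ideal.comap_ne_bot_of_integral_mem ht₀0 (Ideal.mem_span_singleton_self t₀)
      (Algebra.IsIntegral.isIntegral t₀)
  obtain ⟨h, hh, hh0⟩ := Submodule.exists_mem_ne_zero_of_ne_bot hne
  rw [Ideal.mem_comap, Ideal.mem_span_singleton] at hh
  obtain ⟨t', ht'⟩ := hh
  have hCw : Prime (C (wR G) : Polynomial (Rf Fc R)) :=
    Polynomial.prime_C_iff.2 (irreducible_wf G).prime
  obtain ⟨n, g, hng, rfl⟩ := WfDvdMonoid.max_power_factor hh0 hCw.irreducible
  refine ⟨g, hng, ?_⟩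
  have hw0 : wf G ≠ 0 := wf_ne_zero G
  have ht₀F : (t₀ : Fc) ≠ 0 := fun h0 => ht₀0 (Subtype.ext h0)
  -- `w ^ n * g(x) * f = b₀ * t'`
  have hcoe : ((B12.H33.chartPolyHom (Rf Fc R) (xf G) (C (wR G) ^ n * g) :
      H138.chart (Rf Fc R) ({xf G} : Set Fc)) : Fc) = (t₀ : Fc) * (t' : Fc) :=
    congrArg Subtype.val ht'
  rw [B12.H33.coe_chartPolyHom, map_mul, map_pow, Polynomial.aeval_C] at hcoe
  have hwn : (wf G) ^ n * (aeval (xf G) g * f) = (b₀ : Fc) * (t' : Fc) := by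
    have hf' : f = (b₀ : Fc) / (t₀ : Fc) := hbt.symm
    have hcoe' : (wf G) ^ n * aeval (xf G) g = (t₀ : Fc) * (t' : Fc) := hcoe
    rw [hf', ← mul_assoc, hcoe']
    field_simp
  -- strip the powers of `w`
  have key : ∀ (n : ℕ) (b : Fc), b ∈ H138.chart (Rf Fc R) ({xf G} : Set Fc) →
      (wf G) ^ n * (aeval (xf G) g * f) = b →
      aeval (xf G) g * f ∈ H138.chart (Rf Fc R) ({xf G} : Set Fc) := by
    intro n
    induction n with
    | zero =>
      intro b hb h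
      rw [pow_zero, one_mul] at h
      rw [h]; exact hb
    | succ n ih =>
      intro b hb h
      have hbw : b * (wf G)⁻¹ = (wf G) ^ n * (aeval (xf G) g * f) := by
        rw [← h, pow_succ]
        field_simp
      have hV : b * (wf G)⁻¹ ∈ Vf G := by
        rw [hbw]
        refine mul_mem (pow_mem (Rf_le_Vf G _ (wf_mem_Rf G)) n) (mul_mem ?_ hf)
        exact aeval_xf_mem_V G g
      exact ih _ (qep_fin' G b hb hV) hbw.symm
  exact key n _ (Subalgebra.mul_mem _ b₀.2 t'.2) hwn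

include G in
/-- **D2 for a good model.** -/
theorem normalAbs_of_goodModel (f : Ω) (hf : f ∈ V) (P : Polynomial Ω) (hP : P.Monic)
    (hc : ∀ i, P.coeff i ∈ polyRing R x) (hPf : P.eval f * w⁻¹ ∈ V) :
    ∃ b ∈ chart Fc R x, (f - b) * w⁻¹ ∈ V := by
  classical
  haveI := charZero_Fc G
  haveI := isDiscreteValuationRing_Rf G
  haveI := finiteDimensional_baseField G
  have hx := transcendental_xf G
  have hRF : ∀ r ∈ R, r ∈ Fc := fun r hr => R_le_Fc G hr
  have hw0 : w ≠ 0 := G.w_ne_zero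
  have hwf0 : wf G ≠ 0 := wf_ne_zero G
  -- `f` as an element of `Fc`
  obtain ⟨f', hf'⟩ : ∃ f' : Fc, (f' : Ω) = f := ⟨⟨f, G.V_le hf⟩, rfl⟩
  have hfV : f' ∈ Vf G := by
    rw [mem_Vf, hf']; exact hf
  obtain ⟨g, hg, hbmem⟩ := exists_primitive_mul_mem_chart G f' hfV
  have hg0 : g ≠ 0 := fun h => hg (h ▸ dvd_zero _)
  have hγ0 : aeval (xf G) g ≠ 0 := aeval_xf_ne_zero G g hg0
  have hγΩ0 : ((aeval (xf G) g : Fc) : Ω) ≠ 0 := fun h => hγ0 (Subtype.ext h)
  have hγV : ((aeval (xf G) g : Fc) : Ω) ∈ V := aeval_xf_mem_V G g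
  have hγinv : (((aeval (xf G) g : Fc) : Ω))⁻¹ ∈ V := aeval_xf_inv_mem_V G g hg
  -- the coefficients of `P`, in the chart
  have hcoef : ∀ i, ∃ a ∈ baseRing (Rf Fc R) (xf G), (a : Ω) = P.coeff i := fun i =>
    exists_mem_baseRing_of_mem_polyRing Fc R (xf G) hRF (hc i)
  choose a ha hacoe using hcoef
  have hachart : ∀ i, a i ∈ H138.chart (Rf Fc R) ({xf G} : Set Fc) := fun i =>
    H138.adjoin_le_chart _ (ha i)
  -- the ring homomorphism `B → Ω`
  let φ : H138.chart (Rf Fc R) ({xf G} : Set Fc) →+* Ω :=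
    Fc.subtype.comp (H138.chart (Rf Fc R) ({xf G} : Set Fc)).val.toRingHom
  have hφ : ∀ z : H138.chart (Rf Fc R) ({xf G} : Set Fc), φ z = ((z : Fc) : Ω) := fun _ => rfl
  let b : H138.chart (Rf Fc R) ({xf G} : Set Fc) := ⟨aeval (xf G) g * f', hbmem⟩
  let A : Fin P.natDegree → H138.chart (Rf Fc R) ({xf G} : Set Fc) :=
    fun i => ⟨a i, hachart i⟩
  have hφb : φ b = ((aeval (xf G) g : Fc) : Ω) * f := by
    rw [← hf']; rfl
  have hφA : ∀ i, φ (A i) = P.coeff i := fun i => hacoe i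
  have hφg : φ (B12.H33.chartPolyHom (Rf Fc R) (xf G) g) = ((aeval (xf G) g : Fc) : Ω) := by
    rw [hφ, B12.H33.coe_chartPolyHom]
  -- the integral equation mod `w`
  have hz : φ (b ^ P.natDegree + ∑ i : Fin P.natDegree, A i * b ^ (i : ℕ) *
        B12.H33.chartPolyHom (Rf Fc R) (xf G) g ^ (P.natDegree - (i : ℕ))) =
      ((aeval (xf G) g : Fc) : Ω) ^ P.natDegree * P.eval f := by
    rw [map_add, map_pow, map_sum, hφb]
    have h1 : ∀ i : Fin P.natDegree,
        φ (A i * b ^ (i : ℕ) *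
          B12.H33.chartPolyHom (Rf Fc R) (xf G) g ^ (P.natDegree - (i : ℕ))) =
        ((aeval (xf G) g : Fc) : Ω) ^ P.natDegree * (P.coeff (i : ℕ) * f ^ (i : ℕ)) := by
      intro i
      rw [map_mul, map_mul, map_pow, map_pow, hφb, hφA, hφg, mul_pow]
      have hi : (i : ℕ) + (P.natDegree - (i : ℕ)) = P.natDegree :=
        Nat.add_sub_cancel' i.2.le
      calc P.coeff (i : ℕ) * (((aeval (xf G) g : Fc) : Ω) ^ (i : ℕ) * f ^ (i : ℕ)) *
            ((aeval (xf G) g : Fc) : Ω) ^ (P.natDegree - (i : ℕ))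
          = ((aeval (xf G) g : Fc) : Ω) ^ ((i : ℕ) + (P.natDegree - (i : ℕ))) *
              (P.coeff (i : ℕ) * f ^ (i : ℕ)) := by rw [pow_add]; ring
        _ = _ := by rw [hi]
    rw [Finset.sum_congr rfl (fun i _ => h1 i), ← Finset.mul_sum,
      Fin.sum_univ_eq_sum_range (fun i => P.coeff i * f ^ i) P.natDegree,
      Polynomial.eval_eq_sum_range, Finset.sum_range_succ, hP.coeff_natDegree, one_mul, mul_pow]
    ring
  have h : algebraMap (Rf Fc R) (H138.chart (Rf Fc R) ({xf G} : Set Fc)) (wR G) ∣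
      b ^ P.natDegree + ∑ i : Fin P.natDegree, A i * b ^ (i : ℕ) *
        B12.H33.chartPolyHom (Rf Fc R) (xf G) g ^ (P.natDegree - (i : ℕ)) := by
    rw [B12.H33.algebraMap_dvd_chart_iff]
    set z := b ^ P.natDegree + ∑ i : Fin P.natDegree, A i * b ^ (i : ℕ) *
        B12.H33.chartPolyHom (Rf Fc R) (xf G) g ^ (P.natDegree - (i : ℕ)) with hzdef
    have hV : (z : Fc) * (wf G)⁻¹ ∈ Vf G := by
      show ((z : Fc) : Ω) * w⁻¹ ∈ V
      rw [← hφ, hz, mul_assoc]
      exact V.mul_mem (V.pow_mem hγV _) hPf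
    refine ⟨(z : Fc) * (wf G)⁻¹, qep_fin' G _ z.2 hV, ?_⟩
    show (z : Fc) = wf G * ((z : Fc) * (wf G)⁻¹)
    field_simp
  obtain ⟨b₀, hb₀⟩ := normal_chart_field hx (wR G) (irreducible_wf G) (prime_chart G)
    (hsep_chart G) (SR Fc R S) (SR_isUnit_sub G) (hNC_chart G) b g hg P.natDegree A h
  rw [B12.H33.algebraMap_dvd_chart_iff] at hb₀
  obtain ⟨t, ht, hbt⟩ := hb₀
  have htV : (t : Ω) ∈ V :=
    chartRing_le_valuationSubring (Rf Fc R) (xf G) (Vf G) (Rf_le_Vf G) (xf_mem_Vf G) ht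
  refine ⟨((b₀ : Fc) : Ω), (mem_chartRing_iff Fc R (xf G) hRF).1 b₀.2, ?_⟩
  have hbt' : ((aeval (xf G) g : Fc) : Ω) * f - ((aeval (xf G) g : Fc) : Ω) * ((b₀ : Fc) : Ω) =
      w * (t : Ω) := by
    have h1 : φ (b - B12.H33.chartPolyHom (Rf Fc R) (xf G) g * b₀) = w * (t : Ω) := by
      rw [hφ, hbt]; rfl
    rw [map_sub, map_mul, hφb, hφg] at h1
    exact h1
  have : (f - ((b₀ : Fc) : Ω)) * w⁻¹ = (t : Ω) * (((aeval (xf G) g : Fc) : Ω))⁻¹ := by
    field_simp
    linear_combination hbt'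
  rw [this]
  exact V.mul_mem htV hγinv

end Fermat.Agent.S37.H278.NA

namespace Fermat.Agent.S37.H278

open Fermat.Agent.S18

/-- **LEAF D2 of board v3 (row S37)**: `Board3.NormalAbsStatement`, unfolded
(`origin/helper37:Fermat/Agent/S37/Core/Skeleton4.lean`). -/
theorem leaf_normalAbs :
    ∀ (Ω : Type) [Field Ω] (Lc Ec Fc : Subfield Ω) (R V : Subring Ω) (w x : Ω) (S : Finset Ω),
      Alg.GoodModel Lc Ec Fc R V w x S →
      ∀ f ∈ V, ∀ P : Polynomial Ω, P.Monic → (∀ i, P.coeff i ∈ Alg.polyRing R x) →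
        P.eval f * w⁻¹ ∈ V →
        ∃ b ∈ Alg.chart Fc R x, (f - b) * w⁻¹ ∈ V :=
  fun _ _ _ _ _ _ _ _ _ _ G f hf P hP hc hPf => NA.normalAbs_of_goodModel G f hf P hP hc hPf

/-- the same, universe polymorphic and with named hypotheses (for the chart at infinity apply it
to the good model with coordinate `x⁻¹` of `S18.H425.goodModel_inv`). -/
theorem leaf_normalAbs_univ {Ω : Type*} [Field Ω] {Lc Ec Fc : Subfield Ω} {R V : Subring Ω}
    {w x : Ω} {S : Finset Ω} (G : Alg.GoodModel Lc Ec Fc R V w x S)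
    (f : Ω) (hf : f ∈ V) (P : Polynomial Ω) (hP : P.Monic)
    (hc : ∀ i, P.coeff i ∈ Alg.polyRing R x) (hPf : P.eval f * w⁻¹ ∈ V) :
    ∃ b ∈ Alg.chart Fc R x, (f - b) * w⁻¹ ∈ V :=
  NA.normalAbs_of_goodModel G f hf P hP hc hPf

end Fermat.Agent.S37.H278
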