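import Fermat.Agent.S37.Core.Leaves
import Fermat.Agent.S37.H278.NormalAbs

/-!
# S37 board v3, LEAF D2 (helper278): hand-in at the frozen type `Core.NormalAbsStatement`
-/

set_option autoImplicit false

namespace Fermat.Agent.S37.H278

/-- **LEAF D2** of `Fermat/Agent/S37/Core/Leaves.lean`. -/
theorem normalAbsStatement : Fermat.Agent.S37.Core.NormalAbsStatement := leaf_normalAbs

end Fermat.Agent.S37.H278
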